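import Fermat.Agent.Newform.Eigenspaces
import Fermat.Agent.Eigenform.Converse
import Fermat.Agent.IntStr.Main
import Fermat.Prelude.Def_FLTPrelim_ModularRep

/-!
# Newforms with integral eigenvalues, raising the level, trivial bound for point counts
-/

set_option autoImplicit false

noncomputable section

namespace Fermat.Agent.S58Lib

open UpperHalfPlane ModularForm CongruenceSubgroup
open Fermat.Agent.IntStr ModularFormClass CuspForm Fermat.Agent.Eigenform Fermat.Agent.Newform

variable {M N : ℕ}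

theorem coeff_qCoeff (f : ℍ → ℂ) (n : ℕ) : (qExpansion 1 f).coeff n = qCoeff f n := rfl

/-- Galois conjugates of normalised eigenforms. -/
theorem exists_conj [NeZero N] (σ : ℂ →+* ℂ) {f : CuspForm (Gamma0 N) 2}
    (hf : f.IsNormalizedEigenform) :
    ∃ f' : CuspForm (Gamma0 N) 2, f'.IsNormalizedEigenform ∧ ∀ n, qCoeff f' n = σ (qCoeff f n) := by
  obtain ⟨F, hF, hq⟩ := galois_cusp σ (IsCF.of_cuspForm f)
  have hc : ∀ n, qCoeff hF.toCuspForm n = σ (qCoeff f n) := by
    intro n
    rw [hF.coe_toCuspForm, ← coeff_qCoeff, hq]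
    rfl
  refine ⟨hF.toCuspForm, ?_, hc⟩
  rw [isNormalizedEigenform_iff] at hf ⊢
  refine ⟨by rw [hc, hf.1, map_one], fun ℓ hℓ n => ?_⟩
  have := congrArg σ (hf.2 ℓ hℓ n)
  simp only [map_add, map_mul, apply_ite σ, map_zero, map_natCast] at this
  simpa only [hc] using this

/-- If almost all prime coefficients of a newform are rational, all coefficients are integers. -/
theorem exists_int_coeff [NeZero M] {g : CuspForm (Gamma0 M) 2} (hg : g.IsNewform) (s : Finset ℕ)
    (hs : ∀ ℓ : ℕ, ℓ.Prime → ℓ ∉ s → ∃ c : ℤ, qCoeff g ℓ = c) :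
    ∀ ℓ : ℕ, ℓ.Prime → ∃ c : ℤ, qCoeff g ℓ = c := by
  intro ℓ hℓ
  have hrat : qCoeff g ℓ ∈ Set.range (algebraMap ℚ ℂ) := by
    by_contra hcon
    obtain ⟨σ, hσ⟩ := exists_ringEquiv_ne hcon
    obtain ⟨f', hf', hc⟩ := exists_conj (σ : ℂ →+* ℂ) hg.1
    have heq : f' = g := by
      refine eq_of_newform s hg hf' fun r hr hrs => ?_
      obtain ⟨c, hc'⟩ := hs r hr hrs
      rw [hc, hc', map_intCast]
    exact hσ (by rw [← heq] at hc ⊢; exact (hc ℓ).symm)
  obtain ⟨r, hr⟩ := hrat
  have hint : IsIntegral ℤ (qCoeff g ℓ) := isIntegral_qCoeff_prime hg.1 hℓ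
  rw [← hr] at hint
  have hintQ : IsIntegral ℤ r :=
    (isIntegral_algebraMap_iff (algebraMap ℚ ℂ).injective).mp hint
  obtain ⟨m, hm⟩ := IsIntegrallyClosed.isIntegral_iff.mp hintQ
  refine ⟨m, ?_⟩
  rw [← hr, ← hm]
  simp

/-- raising the level of an eigenform -/
theorem exists_raise (d : ℕ) : ∀ (_ : d ≠ 0) {M : ℕ} (_ : M ≠ 0) {g : CuspForm (Gamma0 M) 2}
    (_ : g.IsNormalizedEigenform), ∃ f : CuspForm (Gamma0 (M * d)) 2, f.IsNormalizedEigenform ∧
      ∀ ℓ : ℕ, ℓ.Prime → ¬ ℓ ∣ M * d → qCoeff f ℓ = qCoeff g ℓ := by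
  induction d using Nat.strong_induction_on with
  | _ d IH =>
  intro hd M hM g hg
  have : NeZero M := ⟨hM⟩
  by_cases hd1 : d = 1
  · subst hd1
    rw [mul_one]
    exact ⟨g, hg, fun _ _ _ => rfl⟩
  · obtain ⟨q, hq, e, rfl⟩ := Nat.exists_prime_and_dvd hd1
    have he : e ≠ 0 := by rintro rfl; exact hd (mul_zero q)
    have hlt : e < q * e := by
      have := hq.two_le
      have : 0 < e := Nat.pos_of_ne_zero he
      nlinarith
    obtain ⟨β, hβ⟩ : ∃ β : ℂ, β ^ 2 - qCoeff g q * β + (if q ∣ M then (0 : ℂ) else (q : ℂ)) = 0 := by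
      obtain ⟨β, hβ⟩ := IsAlgClosed.exists_root (k := ℂ)
        (Polynomial.X ^ 2 - Polynomial.C (qCoeff g q) * Polynomial.X +
          Polynomial.C (if q ∣ M then (0 : ℂ) else (q : ℂ))) (by
          have : (Polynomial.X ^ 2 - Polynomial.C (qCoeff g q) * Polynomial.X +
            Polynomial.C (if q ∣ M then (0 : ℂ) else (q : ℂ))).degree = 2 := by
            compute_degree!
          rw [this]; norm_num)
      exact ⟨β, by simpa [Polynomial.IsRoot] using hβ⟩
    obtain ⟨f, hf, hfℓ, -, -⟩ := stabilize hg hq hβ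
    obtain ⟨h, hh, hhℓ⟩ := IH e hlt he (mul_ne_zero hM hq.ne_zero) hf
    rw [← mul_assoc]
    refine ⟨h, hh, fun ℓ hℓ hℓd => ?_⟩
    rw [hhℓ ℓ hℓ hℓd]
    refine hfℓ ℓ hℓ ?_
    rintro rfl
    exact hℓd (((dvd_mul_left ℓ M)).mul_right e)

section Bound

variable {F : Type} [Field F] [Fintype F]

/-- number of points of a Weierstrass curve over a finite field is at most `2q+1` -/
theorem card_point_le (W : WeierstrassCurve F) :
    Nat.card W.toAffine.Point ≤ 2 * Fintype.card F + 1 := by
  classical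
  let S : Finset (F × F) := Finset.univ.filter fun z => W.toAffine.Equation z.1 z.2
  have hS : S.card ≤ 2 * Fintype.card F := by
    have h1 : S.card = ∑ x : F, (S.filter fun z => z.1 = x).card :=
      Finset.card_eq_sum_card_fiberwise fun _ _ => Finset.mem_coe.mpr (Finset.mem_univ _)
    have h2 : ∀ x : F, (S.filter fun z => z.1 = x).card ≤ 2 := by
      intro x
      let p : Polynomial F := Polynomial.X ^ 2 +
        Polynomial.C (W.a₁ * x + W.a₃) * Polynomial.X -
          Polynomial.C (x ^ 3 + W.a₂ * x ^ 2 + W.a₄ * x + W.a₆)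
      have hp : p.natDegree = 2 := by
        simp only [p]; compute_degree!
      have hp0 : p ≠ 0 := by
        intro h; rw [h] at hp; simp at hp
      refine (Finset.card_le_card_of_injOn (t := p.roots.toFinset) (fun z => z.2) ?_ ?_).trans
        ((Multiset.toFinset_card_le _).trans ((Polynomial.card_roots' p).trans hp.le))
      · intro z hz
        simp only [S, Finset.coe_filter, Finset.mem_filter, Finset.mem_univ, true_and,
          Set.mem_ofPred_eq] at hz
        obtain ⟨hz1, rfl⟩ := hz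
        rw [WeierstrassCurve.Affine.equation_iff] at hz1
        rw [Finset.mem_coe, Multiset.mem_toFinset, Polynomial.mem_roots hp0]
        simp only [p, Polynomial.IsRoot, Polynomial.eval_sub, Polynomial.eval_add,
          Polynomial.eval_pow, Polynomial.eval_X, Polynomial.eval_mul, Polynomial.eval_C]
        linear_combination hz1
      · intro z hz z' hz' h
        simp only [S, Finset.coe_filter, Finset.mem_filter, Finset.mem_univ, true_and,
          Set.mem_ofPred_eq] at hz hz'
        exact Prod.ext (hz.2.trans hz'.2.symm) h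
    rw [h1]
    calc _ ≤ ∑ _x : F, 2 := Finset.sum_le_sum fun x _ => h2 x
      _ = 2 * Fintype.card F := by simp [mul_comm]
  let φ : W.toAffine.Point → Option S := fun P => match P with
    | .zero => none
    | .some x y h => some ⟨(x, y), Finset.mem_filter.mpr ⟨Finset.mem_univ _, h.1⟩⟩
  have hφ : Function.Injective φ := by
    rintro (_ | ⟨x, y, h⟩) (_ | ⟨x', y', h'⟩) he
    · rfl
    · exact absurd he (by simp [φ])
    · exact absurd he (by simp [φ])
    · simp only [φ, Option.some.injEq, Subtype.mk.injEq, Prod.mk.injEq] at he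
      obtain ⟨rfl, rfl⟩ := he
      rfl
  calc Nat.card W.toAffine.Point ≤ Nat.card (Option S) := Nat.card_le_card_of_injective φ hφ
    _ = S.card + 1 := by simp
    _ ≤ _ := by omega

theorem abs_apOfModel (W : WeierstrassCurve ℤ) {q : ℕ} (hq : q.Prime) :
    W.apOfModel q ≠ q + 1 ∧ W.apOfModel q ≠ -(q + 1) := by
  have : Fact q.Prime := ⟨hq⟩
  have h1 := card_point_le (W.reductionMod q)
  have h2 : 0 < Nat.card (W.reductionMod q).toAffine.Point := Nat.card_pos
  rw [ZMod.card] at h1
  unfold WeierstrassCurve.apOfModel WeierstrassCurve.traceOfFrobenius WeierstrassCurve.card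
  rw [Nat.card_zmod]
  constructor <;> omega

end Bound

end Fermat.Agent.S58Lib
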