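import Fermat.Agent.S58Lib.Basic
import Fermat.Agent.S58Lib.Integral
import Fermat.Agent.Frob.Basic

/-!
# S58 from S35, S36 and the Galois representations of elliptic curves
-/

set_option autoImplicit false

noncomputable section

namespace Fermat.Agent.S58Lib

open UpperHalfPlane ModularForm CongruenceSubgroup Polynomial
open ModularFormClass CuspForm Fermat.Agent.Eigenform Fermat.Agent.Newform

local notation "Γℚ" => (AlgebraicClosure ℚ ≃ₐ[ℚ] AlgebraicClosure ℚ)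

section IntMap

/-- a subring of `ℂ` contained in the integers maps to `ℤ` -/
def toInt (R : Subring ℂ) (h : R ≤ (Int.castRingHom ℂ).range) : R →+* ℤ :=
  ((RingEquiv.ofBijective (Int.castRingHom ℂ).rangeRestrict
    ⟨fun a b hab => by
      have := congrArg Subtype.val hab
      exact Int.cast_injective this, (Int.castRingHom ℂ).rangeRestrict_surjective⟩).symm :
      (Int.castRingHom ℂ).range →+* ℤ).comp (Subring.inclusion h)

theorem toInt_spec (R : Subring ℂ) (h : R ≤ (Int.castRingHom ℂ).range) (x : R) :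
    ((toInt R h x : ℤ) : ℂ) = x := by
  have h1 := (RingEquiv.ofBijective (Int.castRingHom ℂ).rangeRestrict
    ⟨fun a b hab => by
      have := congrArg Subtype.val hab
      exact Int.cast_injective this, (Int.castRingHom ℂ).rangeRestrict_surjective⟩).apply_symm_apply
      (Subring.inclusion h x)
  exact congrArg Subtype.val h1

end IntMap

section Char

variable {M : ℕ} [NeZero M] {g : CuspForm (Gamma0 M) 2}

/-- The eigencharacter of a normalised eigenform with integral coefficients is integer valued. -/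
theorem exists_intChar (hg : g.IsNormalizedEigenform) (c : ℕ → ℤ)
    (hc : ∀ ℓ : ℕ, ℓ.Prime → qCoeff g ℓ = c ℓ) (S : Set ℕ) :
    ∃ χ : heckeAlgebra M 2 S →+* ℂ, χ.range ≤ (Int.castRingHom ℂ).range ∧
      ∀ (ℓ : ℕ) (hℓ : ℓ.Prime) (hℓM : ¬ ℓ ∣ M) (hℓS : ℓ ∉ S),
        χ (heckeAlgebra.T hℓ hℓM hℓS) = qCoeff g ℓ := by
  obtain ⟨χ, hχ⟩ := exists_eigenChar hg S
  have hg0 := ne_zero_of_isNormalizedEigenform hg
  have huniq : ∀ {x y : ℂ}, x • g = y • g → x = y := fun h => smul_left_injective ℂ hg0 h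
  refine ⟨(algebraMap (integralClosure ℤ ℂ) ℂ).comp χ, ?_, ?_⟩
  · rintro _ ⟨⟨t, ht⟩, rfl⟩
    have key : ∃ n : ℤ, t g = (n : ℂ) • g := by
      induction ht using Algebra.adjoin_induction with
      | mem x hx =>
        rcases hx with ⟨ℓ, hℓ, hℓN, -, rfl⟩ | ⟨q, hqN, hq, -, rfl⟩
        · exact ⟨c ℓ, by rw [← hc ℓ hℓ]; exact heckeTLin_eigen hg hℓ hℓN⟩
        · exact ⟨c q, by rw [← hc q hq]; exact heckeULin_eigen hg hq hqN⟩
      | algebraMap r => exact ⟨r, by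
          simp only [Module.algebraMap_end_apply]; rw [Int.cast_smul_eq_zsmul]⟩
      | add x y hx hy h1 h2 =>
        obtain ⟨a, ha⟩ := h1
        obtain ⟨b, hb⟩ := h2
        exact ⟨a + b, by rw [LinearMap.add_apply, ha, hb, Int.cast_add, add_smul]⟩
      | mul x y hx hy h1 h2 =>
        obtain ⟨a, ha⟩ := h1
        obtain ⟨b, hb⟩ := h2
        exact ⟨a * b, by
          rw [Module.End.mul_apply, hb, map_smul, ha, smul_smul, Int.cast_mul, mul_comm]⟩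
    obtain ⟨n, hn⟩ := key
    exact ⟨n, huniq (by rw [eq_intCast, ← hn]; exact hχ ⟨t, ht⟩)⟩
  · intro ℓ hℓ hℓM hℓS
    apply huniq
    rw [← heckeTLin_eigen hg hℓ hℓM]
    exact (hχ _).symm

end Char

section BaseChange

variable {A B : Type} [CommRing A] [IsLocalRing A] [CommRing B] [IsLocalRing B] [Algebra A B]

theorem charpoly_baseChangeAlong (hφ : IsLocalHom (algebraMap A B)) (ρ : GaloisRepAdic A)
    (σ : Γℚ) : LinearMap.charpoly ((ρ.baseChangeAlong (algebraMap A B) hφ).ρ σ) =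
      (LinearMap.charpoly (ρ.ρ σ)).map (algebraMap A B) := by
  have h1 := @LinearMap.charpoly_baseChange A ρ.V _ _ _ _ _ (ρ.ρ σ) B _ (algebraMap A B).toAlgebra
  exact h1

/-- Frobenius density: equality of all characteristic polynomials after base change -/
theorem charpoly_eq_map [IsHausdorff (IsLocalRing.maximalIdeal B) B]
    (hφ : IsLocalHom (algebraMap A B)) (ρ : GaloisRepAdic A) (ρ' : GaloisRepAdic B)
    (s : Finset ℕ) (h : ∀ ℓ : ℕ, ℓ.Prime → ℓ ∉ s → ∀ P : ValuationSubring (AlgebraicClosure ℚ),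
      P.LiesOverPrime ℓ → ∀ φ : Γℚ, P.IsFrobeniusAt φ ℓ →
        LinearMap.charpoly (ρ'.ρ φ) = (LinearMap.charpoly (ρ.ρ φ)).map (algebraMap A B)) (σ : Γℚ) :
    LinearMap.charpoly (ρ'.ρ σ) = (LinearMap.charpoly (ρ.ρ σ)).map (algebraMap A B) := by
  rw [← charpoly_baseChangeAlong hφ]
  exact Fermat.Agent.Cheb.charpoly_eq_of_frobenius ρ' (ρ.baseChangeAlong (algebraMap A B) hφ) s
    (fun ℓ hℓ hs P hP φ hφ' => by rw [charpoly_baseChangeAlong hφ]; exact h ℓ hℓ hs P hP φ hφ') σ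

theorem trace_det_eq_map (ρ : GaloisRepAdic A) (ρ' : GaloisRepAdic B) (σ : Γℚ)
    (h : LinearMap.charpoly (ρ'.ρ σ) = (LinearMap.charpoly (ρ.ρ σ)).map (algebraMap A B)) :
    LinearMap.trace B ρ'.V (ρ'.ρ σ) = algebraMap A B (LinearMap.trace A ρ.V (ρ.ρ σ)) ∧
      LinearMap.det (ρ'.ρ σ) = algebraMap A B (LinearMap.det (ρ.ρ σ)) := by
  apply Fermat.Agent.Cheb.trace_det_of_charpoly_eq ρ'.finrank_eq
  rw [h, Fermat.Agent.Cheb.charpoly_eq ρ.finrank_eq]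
  simp

end BaseChange

section Keys

variable {M : ℕ} [NeZero M] {g : CuspForm (Gamma0 M) 2}

theorem finite_residueField (l : ℕ) [Fact l.Prime] : Finite (IsLocalRing.ResidueField ℤ_[l]) :=
  Finite.of_equiv (ZMod l) (PadicInt.residueField (p := l)).symm.toEquiv

theorem natCast_mem_maximalIdeal (l : ℕ) [Fact l.Prime] :
    (l : ℤ_[l]) ∈ IsLocalRing.maximalIdeal ℤ_[l] := by
  rw [PadicInt.maximalIdeal_eq_span_p]
  exact Ideal.mem_span_singleton_self _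

theorem map_quadratic {A B : Type} [CommRing A] [CommRing B] (φ : A →+* B) (t d : A) :
    (X ^ 2 - C t * X + C d).map φ = X ^ 2 - C (φ t) * X + C (φ d) := by simp

theorem quadratic_eq {B : Type} [CommRing B] {t d t' d' : B}
    (h : (X ^ 2 - C t * X + C d : B[X]) = X ^ 2 - C t' * X + C d') : t = t' := by
  have h1 := congrArg (fun p => Polynomial.coeff p 1) h
  simpa using h1

/-- Consequences of S35. -/
theorem key35 (h35 : S35Stmt) (hg : g.IsNewform) (c : ℕ → ℤ)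
    (hc : ∀ ℓ : ℕ, ℓ.Prime → qCoeff g ℓ = c ℓ) (W : WeierstrassCurve ℤ) (s : Finset ℕ)
    (hs : ∀ ℓ : ℕ, ℓ.Prime → ℓ ∉ s → ¬ ℓ ∣ M ∧ W.IsGoodPrimeFor ℓ ∧ c ℓ = W.apOfModel ℓ)
    (l : ℕ) [Fact l.Prime] (hec : ECRepAt W l) {q : ℕ} (hq : q.Prime) (hql : q ≠ l)
    (hgood : W.IsGoodPrimeFor q) :
    (q ∣ M → q ^ 2 ∣ M) ∧ (¬ q ∣ M → c q = W.apOfModel q) := by
  classical
  obtain ⟨ρW, hW1, -, -⟩ := hec
  have hfin := finite_residueField l
  set S : Finset ℕ := insert l M.primeFactors with hS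
  obtain ⟨χ, hχr, hχ⟩ := exists_intChar hg.1 c hc (S : Set ℕ)
  let ι : χ.range →+* ℤ_[l] := (Int.castRingHom ℤ_[l]).comp (toInt χ.range hχr)
  have hι : ∀ (ℓ : ℕ) (hℓ : ℓ.Prime) (hℓM : ¬ ℓ ∣ M) (hℓS : ℓ ∉ (S : Set ℕ)),
      (ι.comp χ.rangeRestrict) (heckeAlgebra.T hℓ hℓM hℓS) = (c ℓ : ℤ_[l]) := by
    intro ℓ hℓ hℓM hℓS
    change ((toInt χ.range hχr (χ.rangeRestrict (heckeAlgebra.T hℓ hℓM hℓS)) : ℤ) : ℤ_[l]) = _
    congr 1
    have h1 := toInt_spec χ.range hχr (χ.rangeRestrict (heckeAlgebra.T hℓ hℓM hℓS))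
    rw [RingHom.coe_rangeRestrict, hχ, hc ℓ hℓ] at h1
    exact_mod_cast h1
  obtain ⟨O'', _, _, _, _, _, _, _, _, hloc, hinj, ρ, hρ1, hρ2⟩ := h35 hg l S ℤ_[l]
    (natCast_mem_maximalIdeal l) χ hχ ι (Finset.mem_insert_self _ _)
    (fun q hq hqM => Finset.mem_insert_of_mem (Nat.mem_primeFactors.mpr ⟨hq, hqM, NeZero.ne M⟩))
  have hnot : ∀ ℓ : ℕ, ℓ.Prime → ℓ ≠ l → ¬ ℓ ∣ M → ℓ ∉ (S : Set ℕ) := by
    intro ℓ hℓ hℓl hℓM h
    rw [Finset.mem_coe, hS, Finset.mem_insert] at h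
    rcases h with h | h
    · exact hℓl h
    · exact hℓM (Nat.dvd_of_mem_primeFactors h)
  have key : ∀ σ, LinearMap.charpoly (ρ.ρ σ) =
      (LinearMap.charpoly (ρW.ρ σ)).map (algebraMap ℤ_[l] O'') := by
    refine charpoly_eq_map hloc ρW ρ (insert l s) fun ℓ hℓ hℓs P hP φ hφ => ?_
    rw [Finset.mem_insert, not_or] at hℓs
    obtain ⟨h1, h2, h3⟩ := hs ℓ hℓ hℓs.2
    rw [hρ1 ℓ hℓ h1 (hnot ℓ hℓ hℓs.1 h1) P hP φ hφ, hι, hW1 ℓ hℓ h2 hℓs.1 P hP φ hφ, map_quadratic,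
      h3, map_natCast (algebraMap ℤ_[l] O'')]
  have hcast : ∀ {a b : ℤ}, ((a : ℤ) : O'') = b → a = b := fun h => Int.cast_injective h
  obtain ⟨A, hA⟩ := Fermat.Agent.Frob.exists_liesOverPrime (AlgebraicClosure ℚ) hq
  obtain ⟨σ, hσ⟩ := Fermat.Agent.Frob.exists_isFrobeniusAt A hq hA
  have hk := key σ
  rw [hW1 q hq hgood hql A hA σ hσ, map_quadratic, map_intCast,
    map_natCast (algebraMap ℤ_[l] O'')] at hk
  constructor
  · intro hqM
    by_contra hq2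
    have hbd := abs_apOfModel W hq
    rcases hρ2 q hq hql hqM hq2 A hA σ hσ with h | h
    · rw [h] at hk
      refine hbd.1 (hcast ?_)
      rw [← quadratic_eq hk]
      push_cast
      rfl
    · rw [h] at hk
      refine hbd.2 (hcast ?_)
      have h4 : (X ^ 2 - C (-((q : O'') + 1)) * X + C (q : O'') : O''[X]) =
          X ^ 2 - C ((W.apOfModel q : ℤ) : O'') * X + C (q : O'') := by
        rw [← hk, C_neg]; ring
      rw [← quadratic_eq h4]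
      push_cast
      rfl
  · intro hqM
    have h1 := hρ1 q hq hqM (hnot q hq hql hqM) A hA σ hσ
    rw [hι, map_intCast, hk] at h1
    exact (hcast (quadratic_eq h1)).symm

/-- Consequence of S36. -/
theorem key36 (h36 : S36Stmt) (hg : g.IsNewform) (c : ℕ → ℤ)
    (hc : ∀ ℓ : ℕ, ℓ.Prime → qCoeff g ℓ = c ℓ) (W : WeierstrassCurve ℤ) (s : Finset ℕ)
    (hs : ∀ ℓ : ℕ, ℓ.Prime → ℓ ∉ s → ¬ ℓ ∣ M ∧ W.IsGoodPrimeFor ℓ ∧ c ℓ = W.apOfModel ℓ)
    (l : ℕ) [Fact l.Prime] (hl2 : l ≠ 2) (hec : ECRepAt W l) (hirr : W.ModRepIsIrreducible l)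
    {q : ℕ} (hq : q.Prime) (hql : q ≠ l) (hss : (q : ℤ) ∣ W.Δ → ¬ (q : ℤ) ∣ W.c₄) :
    M.factorization q ≠ 2 := by
  classical
  intro hM2
  obtain ⟨ρW, hW1, hW2, hW3⟩ := hec
  have hfin := finite_residueField l
  set S : Finset ℕ := insert l M.primeFactors with hS
  obtain ⟨χ, hχr, hχ⟩ := exists_intChar hg.1 c hc (S : Set ℕ)
  let ι : χ.range →+* ℤ_[l] := (Int.castRingHom ℤ_[l]).comp (toInt χ.range hχr)
  have hι : ∀ (ℓ : ℕ) (hℓ : ℓ.Prime) (hℓM : ¬ ℓ ∣ M) (hℓS : ℓ ∉ (S : Set ℕ)),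
      (ι.comp χ.rangeRestrict) (heckeAlgebra.T hℓ hℓM hℓS) = (c ℓ : ℤ_[l]) := by
    intro ℓ hℓ hℓM hℓS
    change ((toInt χ.range hχr (χ.rangeRestrict (heckeAlgebra.T hℓ hℓM hℓS)) : ℤ) : ℤ_[l]) = _
    congr 1
    have h1 := toInt_spec χ.range hχr (χ.rangeRestrict (heckeAlgebra.T hℓ hℓM hℓS))
    rw [RingHom.coe_rangeRestrict, hχ, hc ℓ hℓ] at h1
    exact_mod_cast h1
  have hnot : ∀ ℓ : ℕ, ℓ.Prime → ℓ ≠ l → ¬ ℓ ∣ M → ℓ ∉ (S : Set ℕ) := by
    intro ℓ hℓ hℓl hℓM h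
    rw [Finset.mem_coe, hS, Finset.mem_insert] at h
    rcases h with h | h
    · exact hℓl h
    · exact hℓM (Nat.dvd_of_mem_primeFactors h)
  have gen : ∀ (O'' : Type) [CommRing O''] [IsDomain O''] [IsDiscreteValuationRing O'']
      [IsAdicComplete (IsLocalRing.maximalIdeal O'') O''] [CharZero O'']
      [Algebra ℤ_[l] O''] (_ : IsLocalHom (algebraMap ℤ_[l] O'')) (ρ : GaloisRepAdic O''),
      (∀ (ℓ : ℕ) (hℓ : ℓ.Prime) (hℓlam : ℓ ≠ l) (hℓM : ¬ ℓ ∣ M) (hℓS : ℓ ∉ (↑S : Set ℕ)),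
        ∀ A : ValuationSubring (AlgebraicClosure ℚ), A.LiesOverPrime ℓ →
          ∀ σ : AlgebraicClosure ℚ ≃ₐ[ℚ] AlgebraicClosure ℚ, A.IsFrobeniusAt σ ℓ →
            LinearMap.charpoly (ρ.ρ σ) =
              X ^ 2 - C (algebraMap ℤ_[l] O'' ((ι.comp χ.rangeRestrict)
                (CuspForm.heckeAlgebra.T hℓ hℓM hℓS))) * X + C ((ℓ : O''))) →
      ∀ σ, LinearMap.charpoly (ρ.ρ σ) =
        (LinearMap.charpoly (ρW.ρ σ)).map (algebraMap ℤ_[l] O'') := by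
    intro O'' _ _ _ _ _ _ hloc ρ hρ
    refine charpoly_eq_map hloc ρW ρ (insert l s) fun ℓ hℓ hℓs P hP φ hφ => ?_
    rw [Finset.mem_insert, not_or] at hℓs
    obtain ⟨h1, h2, h3⟩ := hs ℓ hℓ hℓs.2
    rw [hρ ℓ hℓ hℓs.1 h1 (hnot ℓ hℓ hℓs.1 h1) P hP φ hφ, hι, hW1 ℓ hℓ h2 hℓs.1 P hP φ hφ,
      map_quadratic, h3, map_natCast (algebraMap ℤ_[l] O'')]
  obtain ⟨O'', _, _, _, _, _, _, _, _, hloc, hinj, ρ, hρ1, hρ2⟩ := h36 hg l S ℤ_[l]
    (natCast_mem_maximalIdeal l) hl2 χ hχ ι (Finset.mem_insert_self _ _)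
    (fun q hq hqM => Finset.mem_insert_of_mem (Nat.mem_primeFactors.mpr ⟨hq, hqM, NeZero.ne M⟩))
    (fun O'' _ _ _ _ _ _ _ _ hloc _ ρ hρ => by
      have h1 := gen O'' hloc ρ hρ
      exact residual_of_trace_det ρW ρ (algebraMap ℤ_[l] O'')
        (fun σ => (trace_det_eq_map ρW ρ σ (h1 σ)).1)
        (fun σ => (trace_det_eq_map ρW ρ σ (h1 σ)).2) (hW3 hl2 hirr))
  have h1 := gen O'' hloc ρ (fun ℓ hℓ _ hℓM hℓS => hρ1 ℓ hℓ hℓM hℓS)
  refine hρ2 q hq hql hM2 fun P hP σ hσ => ?_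
  rw [h1 σ, hW2 q hq hql hss P hP σ hσ]
  simp

end Keys

/-- **S58** from S35, S36 and the elliptic curve input. -/
theorem s58 (h35 : S35Stmt) (h36 : S36Stmt) (hec : ECStmt)
    (W : WeierstrassCurve ℤ) (hss : W.IsSemistableModel) (N : ℕ)
    (p : ℕ) [Fact p.Prime] (hp2 : p ≠ 2) (hirr : W.ModRepIsIrreducible p)
    (hp2N : ¬ p ^ 2 ∣ N)
    (hN : W.IsModularModelOfLevel N) (hbad : ∀ ℓ : ℕ, ℓ.Prime → (ℓ : ℤ) ∣ W.Δ → ℓ ∣ N)
    (hN3 : ∀ q : ℕ, q.Prime → ¬ q ^ 3 ∣ N) :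
    W.IsModularModelOfLevel W.conductorLevel := by
  classical
  have hN0 : N ≠ 0 := by rintro rfl; exact hN3 2 Nat.prime_two (dvd_zero _)
  have : NeZero N := ⟨hN0⟩
  have hΔ : W.Δ ≠ 0 := by
    intro h
    obtain ⟨q, hq1, hq⟩ := Nat.exists_infinite_primes (N + 1)
    have := Nat.le_of_dvd (Nat.pos_of_ne_zero hN0) (hbad q hq (h ▸ dvd_zero _))
    omega
  obtain ⟨f, hf, hfW⟩ := hN
  obtain ⟨M, hMN, g, hg, hgf⟩ := exists_newform hf
  have hM0 : M ≠ 0 := fun h => hN0 (Nat.eq_zero_of_zero_dvd (h ▸ hMN))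
  have : NeZero M := ⟨hM0⟩
  have hgN : ∀ ℓ : ℕ, ℓ.Prime → ℓ ∉ N.primeFactors → ¬ ℓ ∣ M ∧ W.IsGoodPrimeFor ℓ ∧
      qCoeff g ℓ = W.apOfModel ℓ := by
    intro ℓ hℓ hℓN
    have hℓN' : ¬ ℓ ∣ N := fun h => hℓN (Nat.mem_primeFactors.mpr ⟨hℓ, h, hN0⟩)
    have hgood : W.IsGoodPrimeFor ℓ := fun h => hℓN' (hbad ℓ hℓ h)
    exact ⟨fun h => hℓN' (h.trans hMN), hgood, by rw [hgf ℓ hℓ hℓN', hfW ℓ hℓ hgood hℓN']⟩
  have hint := exists_int_coeff hg N.primeFactors fun ℓ hℓ hℓN => ⟨_, (hgN ℓ hℓ hℓN).2.2⟩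
  choose! c hc using hint
  have hs : ∀ ℓ : ℕ, ℓ.Prime → ℓ ∉ N.primeFactors → ¬ ℓ ∣ M ∧ W.IsGoodPrimeFor ℓ ∧
      c ℓ = W.apOfModel ℓ := by
    intro ℓ hℓ hℓN
    obtain ⟨h1, h2, h3⟩ := hgN ℓ hℓ hℓN
    refine ⟨h1, h2, ?_⟩
    rw [hc ℓ hℓ] at h3
    exact_mod_cast h3
  -- `M` is squarefree and only divisible by bad primes
  have hsq : ∀ q : ℕ, q.Prime → ¬ q ^ 2 ∣ M := by
    intro q hq hq2
    by_cases hqp : q = p
    · subst hqp
      exact hp2N (hq2.trans hMN)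
    · refine key36 h36 hg c hc W N.primeFactors hs p hp2 (hec W hΔ p) hirr hq hqp (hss q hq) ?_
      have h3 : ¬ q ^ 3 ∣ M := fun h => hN3 q hq (h.trans hMN)
      rw [hq.pow_dvd_iff_le_factorization hM0] at hq2 h3
      omega
  have haux : ∀ q : ℕ, q.Prime → ∃ l : ℕ, l.Prime ∧ q ≠ l := by
    intro q hq
    by_cases h2 : q = 2
    · exact ⟨3, Nat.prime_three, by omega⟩
    · exact ⟨2, Nat.prime_two, h2⟩
  have hbadM : ∀ q : ℕ, q.Prime → q ∣ M → (q : ℤ) ∣ W.Δ := by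
    intro q hq hqM
    by_contra hgood
    obtain ⟨l, hl, hql⟩ := haux q hq
    have : Fact l.Prime := ⟨hl⟩
    exact hsq q hq ((key35 h35 hg c hc W N.primeFactors hs l (hec W hΔ l) hq hql hgood).1 hqM)
  have hMC : M ∣ W.conductorLevel := by
    have hMsq : Squarefree M := by
      rw [Nat.squarefree_iff_prime_squarefree]
      intro q hq h
      exact hsq q hq (by rwa [pow_two])
    rw [← Nat.prod_primeFactors_of_squarefree hMsq]
    apply Finset.prod_primes_dvd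
    · intro q hq
      exact (Nat.prime_of_mem_primeFactors hq).prime
    · intro q hq
      exact (W.prime_dvd_conductorLevel_iff hΔ (Nat.prime_of_mem_primeFactors hq)).mpr
        (hbadM q (Nat.prime_of_mem_primeFactors hq) (Nat.dvd_of_mem_primeFactors hq))
  obtain ⟨d, hd⟩ := hMC
  have hd0 : d ≠ 0 := by
    rintro rfl
    rw [mul_zero] at hd
    exact W.conductorLevel_pos.ne' hd
  obtain ⟨F, hF, hFg⟩ := exists_raise d hd0 hM0 hg.1
  rw [hd]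
  refine ⟨F, hF, fun q hq hgood hqd => ?_⟩
  have hqM : ¬ q ∣ M := fun h => hqd (h.mul_right d)
  rw [hFg q hq hqd, hc q hq]
  obtain ⟨l, hl, hql⟩ := haux q hq
  have : Fact l.Prime := ⟨hl⟩
  have := (key35 h35 hg c hc W N.primeFactors hs l (hec W hΔ l) hq hql hgood).2 hqM
  exact_mod_cast this

end Fermat.Agent.S58Lib
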