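import Fermat.Agent.RepTwo.TraceForm
import Fermat.Agent.Cheb.Charpoly

/-!
# A trace criterion for absolute irreducibility of two-dimensional representations
-/

set_option autoImplicit false

open scoped TensorProduct

namespace Fermat.Agent.S58Lib

local notation "Γℚ" => (AlgebraicClosure ℚ ≃ₐ[ℚ] AlgebraicClosure ℚ)

variable {k : Type} [Field k]

/-- the Gram matrix of the trace form at four group elements -/
noncomputable def gram {A : Type*} [CommRing A] (t : Γℚ → A) (s : Fin 4 → Γℚ) :
    Matrix (Fin 4) (Fin 4) A :=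
  Matrix.of fun i j => t (s i * s j)

theorem map_gram {A B : Type*} [CommRing A] [CommRing B] (φ : A →+* B) (t : Γℚ → A)
    (s : Fin 4 → Γℚ) : (gram t s).map φ = gram (fun σ => φ (t σ)) s := rfl

theorem det_gram_map {A B : Type*} [CommRing A] [CommRing B] (φ : A →+* B) (t : Γℚ → A)
    (s : Fin 4 → Γℚ) : (gram (fun σ => φ (t σ)) s).det = φ (gram t s).det := by
  rw [← map_gram, RingHom.map_det]; rfl

/-- if the Gram determinant does not vanish then the four operators span `End V` -/
theorem span_eq_top_of_det_ne_zero {V : Type} [AddCommGroup V] [Module k V]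
    (hV : Module.finrank k V = 2) (ρ : Γℚ →* Module.End k V) (s : Fin 4 → Γℚ)
    (h : (gram (fun σ => LinearMap.trace k V (ρ σ)) s).det ≠ 0) :
    Submodule.span k (Set.range fun i => ρ (s i)) = ⊤ := by
  have : Module.Finite k V := Module.finite_of_finrank_eq_succ hV
  have hli : LinearIndependent k fun i => ρ (s i) := by
    rw [Fintype.linearIndependent_iff]
    intro c hc i
    have h1 : (gram (fun σ => LinearMap.trace k V (ρ σ)) s).mulVec c = 0 := by
      ext i
      have h2 := congrArg (fun f => LinearMap.trace k V (ρ (s i) * f)) hc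
      simp only [mul_zero, map_zero, Finset.mul_sum, map_sum, mul_smul_comm, map_smul,
        smul_eq_mul] at h2
      rw [Pi.zero_apply, ← h2]
      simp only [Matrix.mulVec, dotProduct, gram, Matrix.of_apply, map_mul]
      exact Finset.sum_congr rfl fun j _ => mul_comm _ _
    have h3 := Matrix.eq_zero_of_mulVec_eq_zero h h1
    exact congrFun h3 i
  have hcard : Fintype.card (Fin 4) = Module.finrank k (Module.End k V) := by
    rw [Module.finrank_linearMap, hV]; simp
  exact (basisOfLinearIndependentOfCardEqFinrank hli hcard).span_eq ▸ by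
    rw [coe_basisOfLinearIndependentOfCardEqFinrank]

theorem isIrreducible_of_span {ρ : ResidualGaloisRep k}
    (h : Submodule.span k (Set.range ρ.ρ) = ⊤) : ρ.IsIrreducible := by
  classical
  intro W hW
  have hW' : ∀ f : Module.End k ρ.V, ∀ x ∈ W, f x ∈ W := by
    intro f x hx
    have hf : f ∈ Submodule.span k (Set.range ρ.ρ) := h ▸ Submodule.mem_top
    induction hf using Submodule.span_induction with
    | mem f hf => obtain ⟨σ, rfl⟩ := hf; exact hW σ x hx
    | zero => exact W.zero_mem
    | add f g _ _ hf hg => exact W.add_mem hf hg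
    | smul a f _ hf => exact W.smul_mem a hf
  by_cases hb : W = ⊥
  · exact Or.inl hb
  · right
    obtain ⟨v, hv, hv0⟩ := Submodule.exists_mem_ne_zero_of_ne_bot hb
    rw [eq_top_iff]
    intro w _
    obtain ⟨g, hg⟩ : ∃ g : Module.Dual k ρ.V, g v = 1 := by
      obtain ⟨g, hg⟩ := not_forall.mp (mt (Module.forall_dual_apply_eq_zero_iff k v).mp hv0)
      exact ⟨(g v)⁻¹ • g, by simp [hg]⟩
    have := hW' (g.smulRight w) v hv
    rwa [LinearMap.smulRight_apply, hg, one_smul] at this


variable (ρ : ResidualGaloisRep k)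

theorem trace_baseChange (K : Type) [Field K] [Algebra k K] (σ : Γℚ) :
    LinearMap.trace K (ρ.baseChange K).V ((ρ.baseChange K).ρ σ) =
      algebraMap k K (LinearMap.trace k ρ.V (ρ.ρ σ)) :=
  LinearMap.trace_baseChange (ρ.ρ σ) K

/-- the criterion, sufficiency -/
theorem absIrr_of_det_ne_zero {s : Fin 4 → Γℚ}
    (h : (gram (fun σ => LinearMap.trace k ρ.V (ρ.ρ σ)) s).det ≠ 0) :
    ρ.IsAbsolutelyIrreducible := by
  apply isIrreducible_of_span
  set K := AlgebraicClosure k
  have h1 : (gram (fun σ => LinearMap.trace K (ρ.baseChange K).V ((ρ.baseChange K).ρ σ)) s).det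
      ≠ 0 := by
    have h2 : (fun σ => LinearMap.trace K (ρ.baseChange K).V ((ρ.baseChange K).ρ σ)) =
        fun σ => algebraMap k K (LinearMap.trace k ρ.V (ρ.ρ σ)) :=
      funext fun σ => trace_baseChange ρ K σ
    rw [h2, det_gram_map (algebraMap k K)]
    exact fun h0 => h ((map_eq_zero _).mp h0)
  have h2 := span_eq_top_of_det_ne_zero (ρ.baseChange K).finrank_eq (ρ.baseChange K).ρ s h1
  rw [eq_top_iff, ← h2]
  exact Submodule.span_mono (by rintro _ ⟨i, rfl⟩; exact ⟨s i, rfl⟩)

/-- the criterion, necessity -/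
theorem exists_det_ne_zero {K V : Type} [Field K] [AddCommGroup V] [Module K V]
    (hV : Module.finrank K V = 2) (ρ : Γℚ →* Module.End K V)
    (h : Submodule.span K (Set.range ρ) = ⊤) :
    ∃ s : Fin 4 → Γℚ, (gram (fun σ => LinearMap.trace K V (ρ σ)) s).det ≠ 0 := by
  classical
  have : Module.Finite K V := Module.finite_of_finrank_eq_succ hV
  obtain ⟨b, hb, hspan, hli⟩ := exists_linearIndependent K (Set.range ρ)
  rw [h] at hspan
  let B : Module.Basis b K (Module.End K V) := Module.Basis.mk hli (by
    rw [Subtype.range_coe, hspan])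
  have : Fintype b := FiniteDimensional.fintypeBasisIndex B
  have hcard : Fintype.card b = 4 := by
    rw [← Module.finrank_eq_card_basis B, Module.finrank_linearMap, hV]
  let e : Fin 4 ≃ b := (Fintype.equivFinOfCardEq hcard).symm
  choose g hg using fun i : b => hb i.2
  refine ⟨fun i => g (e i), fun hdet => ?_⟩
  obtain ⟨c, hc0, hc⟩ := Matrix.exists_mulVec_eq_zero_iff.mpr hdet
  have hρ : ∀ i, ρ (g (e i)) = B.reindex e.symm i := by
    intro i
    rw [hg, Module.Basis.reindex_apply, Equiv.symm_symm, Module.Basis.mk_apply]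
  have h0 : ∑ i, c i • ρ (g (e i)) = 0 := by
    apply Fermat.Agent.RepTwo.eq_zero_of_trace_mul_eq_zero
    intro f
    have hf : f ∈ Submodule.span K (Set.range (B.reindex e.symm)) := by
      rw [(B.reindex e.symm).span_eq]; trivial
    induction hf using Submodule.span_induction with
    | mem f hf =>
      obtain ⟨i, rfl⟩ := hf
      rw [← hρ, Finset.mul_sum, map_sum]
      have := congrFun hc i
      rw [Pi.zero_apply] at this
      rw [← this]
      simp only [Matrix.mulVec, dotProduct, gram, Matrix.of_apply, map_mul, mul_smul_comm,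
        map_smul, smul_eq_mul]
      exact Finset.sum_congr rfl fun j _ => mul_comm _ _
    | zero => simp
    | add f g _ _ hf hg => rw [add_mul, map_add, hf, hg, add_zero]
    | smul a f _ hf => rw [smul_mul_assoc, map_smul, hf, smul_zero]
  simp only [hρ] at h0
  exact hc0 (funext (Fintype.linearIndependent_iff.mp (B.reindex e.symm).linearIndependent c h0))

theorem exists_det_ne_zero_of_absIrr (h : ρ.IsAbsolutelyIrreducible) :
    ∃ s : Fin 4 → Γℚ, (gram (fun σ => LinearMap.trace k ρ.V (ρ.ρ σ)) s).det ≠ 0 := by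
  set K := AlgebraicClosure k
  have : Nontrivial (ρ.baseChange K).V :=
    Module.nontrivial_of_finrank_pos (R := K) (by rw [(ρ.baseChange K).finrank_eq]; norm_num)
  obtain ⟨s, hs⟩ := exists_det_ne_zero (ρ.baseChange K).finrank_eq (ρ.baseChange K).ρ
    (Fermat.Agent.RepTwo.span_range_eq_top (K := K) (V := (ρ.baseChange K).V)
      (ρ.baseChange K).ρ h)
  refine ⟨s, fun h0 => hs ?_⟩
  have h2 : (fun σ => LinearMap.trace K (ρ.baseChange K).V ((ρ.baseChange K).ρ σ)) =
      fun σ => algebraMap k K (LinearMap.trace k ρ.V (ρ.ρ σ)) :=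
    funext fun σ => trace_baseChange ρ K σ
  rw [h2, det_gram_map (algebraMap k K), h0, map_zero]

section Adic

variable {A B : Type} [CommRing A] [IsLocalRing A] [CommRing B] [IsLocalRing B]

theorem residual_trace (ρ : GaloisRepAdic A) (σ : Γℚ) :
    LinearMap.trace _ ρ.residual.V (ρ.residual.ρ σ) =
      IsLocalRing.residue A (LinearMap.trace A ρ.V (ρ.ρ σ)) :=
  LinearMap.trace_baseChange (ρ.ρ σ) (IsLocalRing.ResidueField A)

theorem residual_det (ρ : GaloisRepAdic A) (σ : Γℚ) :
    LinearMap.det (ρ.residual.ρ σ) = IsLocalRing.residue A (LinearMap.det (ρ.ρ σ)) :=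
  LinearMap.det_baseChange (ρ.ρ σ)

theorem absIrr_residual_iff (ρ : GaloisRepAdic A) :
    ρ.residual.IsAbsolutelyIrreducible ↔
      ∃ s : Fin 4 → Γℚ, IsUnit (gram (fun σ => LinearMap.trace A ρ.V (ρ.ρ σ)) s).det := by
  have key : ∀ s, (gram (fun σ => LinearMap.trace _ ρ.residual.V (ρ.residual.ρ σ)) s).det =
      IsLocalRing.residue A (gram (fun σ => LinearMap.trace A ρ.V (ρ.ρ σ)) s).det := by
    intro s
    simp only [residual_trace]
    rw [det_gram_map (IsLocalRing.residue A)]
  constructor
  · intro h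
    obtain ⟨s, hs⟩ := exists_det_ne_zero_of_absIrr _ h
    refine ⟨s, ?_⟩
    rw [key] at hs
    exact (IsLocalRing.residue_ne_zero_iff_isUnit _).mp hs
  · rintro ⟨s, hs⟩
    apply absIrr_of_det_ne_zero (s := s)
    rw [key]
    exact (IsLocalRing.residue_ne_zero_iff_isUnit _).mpr hs

/-- residual absolute irreducibility and oddness only depend on traces and determinants and are
stable under local base change -/
theorem residual_of_trace_det (ρ : GaloisRepAdic A) (ρ' : GaloisRepAdic B) (φ : A →+* B)
    (ht : ∀ σ, LinearMap.trace B ρ'.V (ρ'.ρ σ) = φ (LinearMap.trace A ρ.V (ρ.ρ σ)))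
    (hd : ∀ σ, LinearMap.det (ρ'.ρ σ) = φ (LinearMap.det (ρ.ρ σ)))
    (h : ρ.residual.IsAbsolutelyIrreducible ∧ ρ.residual.IsOdd) [IsLocalHom φ] :
    ρ'.residual.IsAbsolutelyIrreducible ∧ ρ'.residual.IsOdd := by
  constructor
  · rw [absIrr_residual_iff] at h ⊢
    obtain ⟨⟨s, hs⟩, -⟩ := h
    refine ⟨s, ?_⟩
    simp only [ht]
    rw [det_gram_map φ]
    exact hs.map φ
  · intro c hc hc1
    have h1 := h.2 c hc hc1
    rw [residual_det] at h1 ⊢
    rw [hd]
    have h2 := congrArg (IsLocalRing.ResidueField.map φ) h1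
    rwa [IsLocalRing.ResidueField.map_residue, map_neg, map_one] at h2

end Adic

end Fermat.Agent.S58Lib
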